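import Fermat.Agent.Lib.CFT.Global.Existence.Count
import Fermat.Agent.Lib.CFT.Global.SecondIneq.SUnitsIndex
import Fermat.Agent.Lib.CFT.Global.SecondIneq.LocalIndex
import Fermat.Agent.Lib.CFT.Global.SecondIneq.RootsOfUnity
import Fermat.Agent.Lib.CFT.Global.SecondIneq.LargeS
import Fermat.Agent.Lib.CFT.Global.SecondIneq.AuxSet

/-!
# P4 / C6 (existence theorem): the groups `Δ_S` and `Sel_S` and the counting

For a number field `K ⊇ μ_p` and a finite set `S ∋ p` of rational primes: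

* `DeltaS S K p ≤ Kˣ`: the elements which are, at every `q ∉ S`, a `p`-th power times a unit
  (`K(Δ_S^{1/p})` is the maximal abelian extension of exponent `p` unramified outside `S`);
* `SelS S K p ≤ DeltaS S K p`: those which are moreover local `p`-th powers at all `q ∈ S`.

Main result `CS.index_le_relIndex_DeltaS`: if `[Sel_S : Kˣᵖ] ≤ |Cl_S / p|` then
`|C_S(K) / p| ≤ [Δ_S : Kˣᵖ]`.
-/

set_option autoImplicit false

namespace Fermat.Agent.CFT.Global

open Fermat.Agent.CFT.Local Existence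

noncomputable section

variable (S : Finset Nat.Primes) (K : Type) [Field K] [NumberField K] (p : ℕ)

/-- `Δ_S`: the elements of `Kˣ` which are `p`-th powers times units locally outside `S`. -/
def DeltaS : Subgroup Kˣ :=
  delta (FinIdele.princ K) (unitsOutside S K) (JS.toFinIdele S K).range p

/-- `Sel_S`: the elements of `Δ_S` which are local `p`-th powers at `S`. -/
def SelS : Subgroup Kˣ := sel (FinIdele.princ K) (unitsOutside S K) p

variable {S K p}

lemma mem_DeltaS_iff {a : Kˣ} : a ∈ DeltaS S K p ↔ FinIdele.princ K a ∈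
    Jp (FinIdele K) p ⊔ (JS.toFinIdele S K).range ⊔ unitsOutside S K := Iff.rfl

lemma mem_SelS_iff {a : Kˣ} : a ∈ SelS S K p ↔ FinIdele.princ K a ∈
    Jp (FinIdele K) p ⊔ unitsOutside S K := Iff.rfl

lemma SelS_le_DeltaS : SelS S K p ≤ DeltaS S K p := sel_le_delta _ _ _ _

lemma range_pow_le_SelS : (powMonoidHom p : Kˣ →* Kˣ).range ≤ SelS S K p := Jp_le_sel _ _ _

lemma range_pow_le_DeltaS : (powMonoidHom p : Kˣ →* Kˣ).range ≤ DeltaS S K p :=
  Jp_le_delta _ _ _ _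

lemma FinIdele.comp_princ (q : Nat.Primes) (a : Kˣ) :
    FinIdele.comp q (FinIdele.princ K a) = SL.unitsIncl (q : ℕ) K a := rfl

/-- the local shape of the elements of `Δ_S` outside `S` -/
theorem DeltaS.exists_local {a : Kˣ} (ha : a ∈ DeltaS S K p) (r : Nat.Primes) (hr : r ∉ S) :
    ∃ t : (SL (r : ℕ) K)ˣ, ∃ u ∈ SL.unitGroup (r : ℕ) K,
      SL.incl (r : ℕ) K (a : K) = (t : SL (r : ℕ) K) ^ p * (u : SL (r : ℕ) K) := by
  rw [mem_DeltaS_iff, sup_assoc, Subgroup.mem_sup] at ha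
  obtain ⟨_, ⟨z, rfl⟩, w, hw, hzw⟩ := ha
  rw [Subgroup.mem_sup] at hw
  obtain ⟨_, ⟨y, rfl⟩, u, hu, rfl⟩ := hw
  refine ⟨FinIdele.comp r z, FinIdele.comp r u, hu.2 r hr, ?_⟩
  have h1 := congrArg (fun x => ((FinIdele.comp r x : (SL (r : ℕ) K)ˣ) : SL (r : ℕ) K)) hzw
  simp only [map_mul, powMonoidHom_apply, map_pow, JS.comp_toFinIdele_of_notMem y hr, one_mul,
    Units.val_mul, Units.val_pow_eq_pow_val] at h1
  rw [h1]
  rfl

/-- the elements of `Sel_S` are local `p`-th powers at `S` -/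
theorem SelS.exists_local {a : Kˣ} (ha : a ∈ SelS S K p) (q : Nat.Primes) (hq : q ∈ S) :
    ∃ z : (SL (q : ℕ) K)ˣ, SL.unitsIncl (q : ℕ) K a = z ^ p := by
  rw [mem_SelS_iff, Subgroup.mem_sup] at ha
  obtain ⟨_, ⟨z, rfl⟩, u, hu, hzu⟩ := ha
  refine ⟨FinIdele.comp q z, ?_⟩
  have h1 := congrArg (FinIdele.comp q) hzu
  rw [map_mul, powMonoidHom_apply, map_pow, hu.1 q hq, mul_one] at h1
  rw [h1]
  rfl

/-- `Δ_S` is stable under ring homomorphisms `K → K`. -/
theorem DeltaS.map_mem (f : K →+* K) {a : Kˣ} (ha : a ∈ DeltaS S K p) :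
    Units.map (f : K →* K) a ∈ DeltaS S K p := by
  rw [mem_DeltaS_iff] at ha ⊢
  rw [← FinIdele.map_princ]
  rw [sup_assoc, Subgroup.mem_sup] at ha
  obtain ⟨_, ⟨z, rfl⟩, w, hw, hzw⟩ := ha
  rw [Subgroup.mem_sup] at hw
  obtain ⟨_, ⟨y, rfl⟩, u, hu, rfl⟩ := hw
  rw [← hzw, map_mul, map_mul, powMonoidHom_apply, map_pow, JS.map_toFinIdele, sup_assoc]
  exact mul_mem (Subgroup.mem_sup_left ⟨_, rfl⟩)
    (Subgroup.mem_sup_right (mul_mem (Subgroup.mem_sup_left ⟨_, rfl⟩)
      (Subgroup.mem_sup_right (map_mem_unitsOutside S f hu))))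

/-- `Sel_S` is stable under ring homomorphisms `K → K`. -/
theorem SelS.map_mem (f : K →+* K) {a : Kˣ} (ha : a ∈ SelS S K p) :
    Units.map (f : K →* K) a ∈ SelS S K p := by
  rw [mem_SelS_iff] at ha ⊢
  rw [← FinIdele.map_princ]
  rw [Subgroup.mem_sup] at ha
  obtain ⟨_, ⟨z, rfl⟩, u, hu, hzu⟩ := ha
  rw [← hzu, map_mul, powMonoidHom_apply, map_pow]
  exact mul_mem (Subgroup.mem_sup_left ⟨_, rfl⟩)
    (Subgroup.mem_sup_right (map_mem_unitsOutside S f hu))

/-! ## The concrete hypotheses of the counting -/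

/-- `J_S U^S` is the group of ideles which are units outside `S`. -/
theorem mem_range_toFinIdele_sup_unitsOutside_iff {x : FinIdele K} :
    x ∈ (JS.toFinIdele S K).range ⊔ unitsOutside S K ↔
      ∀ q : Nat.Primes, q ∉ S → FinIdele.comp q x ∈ SL.unitGroup (q : ℕ) K := by
  constructor
  · intro hx q hq
    rw [Subgroup.mem_sup] at hx
    obtain ⟨_, ⟨y, rfl⟩, u, hu, rfl⟩ := hx
    rw [map_mul, JS.comp_toFinIdele_of_notMem y hq, one_mul]
    exact hu.2 q hq
  · intro hx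
    obtain ⟨u', hu', h⟩ := FinIdele.exists_eq_toFinIdele_mul x hx
    rw [h]
    exact mul_mem (Subgroup.mem_sup_left ⟨_, rfl⟩) (Subgroup.mem_sup_right hu')

theorem pow_mem_range_toFinIdele_sup_unitsOutside {n : ℕ} (hn : n ≠ 0) (x : FinIdele K)
    (hx : x ^ n ∈ (JS.toFinIdele S K).range ⊔ unitsOutside S K) :
    x ∈ (JS.toFinIdele S K).range ⊔ unitsOutside S K := by
  rw [mem_range_toFinIdele_sup_unitsOutside_iff] at hx ⊢
  intro q hq
  have := hx q hq
  rw [map_pow] at this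
  exact SL.mem_unitGroup_of_pow_mem (Nat.pos_of_ne_zero hn) this

/-- an `S`-idele which is a `p`-th power times an element of `U^S` is a `p`-th power of an
`S`-idele -/
theorem JS.eq_pow_of_toFinIdele_eq {n : ℕ} {y : JS S K} {z u : FinIdele K}
    (hu : u ∈ unitsOutside S K) (h : JS.toFinIdele S K y = z ^ n * u) :
    y = (FinIdele.partS S K z) ^ n := by
  funext q
  have h1 := congrArg (FinIdele.comp (q : Nat.Primes)) h
  rw [JS.comp_toFinIdele_of_mem y q.2, map_mul, map_pow, hu.1 q q.2, mul_one] at h1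
  exact h1

theorem Jp_sup_unitsOutside_inf_range_le (n : ℕ) :
    (Jp (FinIdele K) n ⊔ unitsOutside S K) ⊓ (JS.toFinIdele S K).range ≤ Jp (FinIdele K) n := by
  rintro x ⟨hx1, ⟨y, rfl⟩⟩
  have hx1' : JS.toFinIdele S K y ∈ Jp (FinIdele K) n ⊔ unitsOutside S K := hx1
  rw [Subgroup.mem_sup] at hx1'
  clear hx1
  rename' hx1' => hx1
  obtain ⟨_, ⟨z, rfl⟩, u, hu, hzu⟩ := hx1
  rw [JS.eq_pow_of_toFinIdele_eq hu hzu.symm, map_pow]
  exact ⟨_, rfl⟩

/-- `Kˣ J_S U^S` has finite index in the ideles. -/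
theorem index_princ_sup_range_sup_unitsOutside_ne_zero :
    ((FinIdele.princ K).range ⊔ (JS.toFinIdele S K).range ⊔ unitsOutside S K).index ≠ 0 := by
  have h1 : ((JS.toCS S K).range).comap (CS.mk S K)
      = (FinIdele.princ K).range ⊔ (JS.toFinIdele S K).range ⊔ unitsOutside S K := by
    have h2 : (JS.toCS S K).range = ((JS.toFinIdele S K).range).map (CS.mk S K) := by
      rw [JS.toCS, MonoidHom.range_comp]
    have h3 : (CS.mk S K).ker = CS.relations S K := QuotientGroup.ker_mk' _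
    rw [h2, Subgroup.comap_map_eq, h3, CS.relations]
    ac_rfl
  rw [← h1, Subgroup.index_comap_of_surjective _ (CS.mk_surjective S)]
  exact Subgroup.index_ne_zero_of_finite

/-- `ι⁻¹ (J_S U^S)` is the group of `S`-units. -/
theorem sUnit_princ_eq :
    sUnit (FinIdele.princ K) (unitsOutside S K) (JS.toFinIdele S K).range = SUnits S K := by
  ext a
  rw [sUnit, Subgroup.mem_comap, mem_range_toFinIdele_sup_unitsOutside_iff, mem_SUnits_iff]
  rfl

/-- `[K_S Kˣᵖ : Kˣᵖ] = [K_S : K_Sᵖ]`. -/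
theorem relIndex_Jp_SUnits {n : ℕ} (hn : n ≠ 0) :
    (Jp Kˣ n).relIndex (SUnits S K) = (powMonoidHom n : SUnits S K →* SUnits S K).range.index := by
  rw [Subgroup.relIndex]
  congr 1
  ext x
  rw [Subgroup.mem_subgroupOf]
  constructor
  · rintro ⟨k, hk⟩
    have hk' : k ^ n = (x : Kˣ) := hk
    have hkS : k ∈ SUnits S K := mem_SUnits_of_pow_mem_SUnits hn (by rw [hk']; exact x.2)
    exact ⟨⟨k, hkS⟩, Subtype.ext hk'⟩
  · rintro ⟨y, rfl⟩
    exact ⟨(y : Kˣ), rfl⟩

/-- `[J_S : J_S ∩ Jᵖ] = [J_S : J_Sᵖ]`. -/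
theorem relIndex_Jp_range_toFinIdele (n : ℕ) :
    (Jp (FinIdele K) n).relIndex (JS.toFinIdele S K).range
      = (powMonoidHom n : JS S K →* JS S K).range.index := by
  have h1 : Jp (FinIdele K) n ⊓ (JS.toFinIdele S K).range
      = ((powMonoidHom n : JS S K →* JS S K).range).map (JS.toFinIdele S K) := by
    apply le_antisymm
    · rintro x ⟨⟨z, hz⟩, ⟨y, rfl⟩⟩
      have hz' : z ^ n = JS.toFinIdele S K y := hz
      have := JS.eq_pow_of_toFinIdele_eq (S := S) (u := 1) (one_mem _)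
        (by rw [mul_one]; exact hz'.symm)
      exact ⟨y, ⟨FinIdele.partS S K z, this.symm⟩, rfl⟩
    · rintro _ ⟨_, ⟨y, rfl⟩, rfl⟩
      exact ⟨⟨JS.toFinIdele S K y, (map_pow _ _ _).symm⟩, ⟨_, rfl⟩⟩
  rw [← Subgroup.inf_relIndex_right, h1, MonoidHom.range_eq_map (JS.toFinIdele S K),
    Subgroup.relIndex_map_map_of_injective _ _ JS.toFinIdele_injective,
    Subgroup.relIndex_top_right]

/-! ## The counting -/

section Count

variable [hp : Fact p.Prime]

/-- `[Δ_S : Kˣᵖ] ≠ 0`. -/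
theorem relIndex_DeltaS_ne_zero (ζ : K) (hζ : IsPrimitiveRoot ζ p) :
    (powMonoidHom p : Kˣ →* Kˣ).range.relIndex (DeltaS S K p) ≠ 0 := by
  have hp0 : p ≠ 0 := hp.out.ne_zero
  refine relIndex_delta_ne_zero RootsOfUnity.princ_injective
    (pow_mem_range_toFinIdele_sup_unitsOutside hp0)
    index_princ_sup_range_sup_unitsOutside_ne_zero ?_
  rw [sUnit_princ_eq, relIndex_Jp_SUnits hp0, SUnits.index_range_pow S K p ζ hζ]
  exact pow_ne_zero _ hp0

/-- `[Sel_S : Kˣᵖ] ≠ 0`. -/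
theorem relIndex_SelS_ne_zero (ζ : K) (hζ : IsPrimitiveRoot ζ p) :
    (powMonoidHom p : Kˣ →* Kˣ).range.relIndex (SelS S K p) ≠ 0 := by
  have hp0 : p ≠ 0 := hp.out.ne_zero
  refine relIndex_sel_ne_zero (T := (JS.toFinIdele S K).range) RootsOfUnity.princ_injective
    (pow_mem_range_toFinIdele_sup_unitsOutside hp0)
    index_princ_sup_range_sup_unitsOutside_ne_zero ?_
  rw [sUnit_princ_eq, relIndex_Jp_SUnits hp0, SUnits.index_range_pow S K p ζ hζ]
  exact pow_ne_zero _ hp0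

/-- **The counting step of the existence theorem**: if `[Sel_S : Kˣᵖ] ≤ |Cl_S / p|` then
`|C_S / p| ≤ [Δ_S : Kˣᵖ]`. -/
theorem index_le_relIndex_DeltaS (hp2 : p ≠ 2) (hpS : (⟨p, hp.out⟩ : Nat.Primes) ∈ S) (ζ : K)
    (hζ : IsPrimitiveRoot ζ p)
    (hs : (powMonoidHom p : Kˣ →* Kˣ).range.relIndex (SelS S K p) ≤
      ((FinIdele.princ K).range ⊔ (JS.toFinIdele S K).range ⊔ unitsOutside S K
        ⊔ (powMonoidHom p : FinIdele K →* FinIdele K).range).index) :
    ((FinIdele.princ K).range ⊔ unitsOutside S K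
        ⊔ (powMonoidHom p : FinIdele K →* FinIdele K).range).index
      ≤ (powMonoidHom p : Kˣ →* Kˣ).range.relIndex (DeltaS S K p) := by
  have hp0 : p ≠ 0 := hp.out.ne_zero
  refine index_le_relIndex_delta RootsOfUnity.princ_injective
    (pow_mem_range_toFinIdele_sup_unitsOutside hp0)
    index_princ_sup_range_sup_unitsOutside_ne_zero (Jp_sup_unitsOutside_inf_range_le p)
    ((powMonoidHom p : SUnits S K →* SUnits S K).range.index) ?_ ?_ ?_ hs
  · rw [SUnits.index_range_pow S K p ζ hζ]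
    exact pow_ne_zero _ hp0
  · rw [sUnit_princ_eq, relIndex_Jp_SUnits hp0]
  · rw [relIndex_Jp_range_toFinIdele, JS.index_range_pow S K p hpS ζ hζ,
      SUnits.index_range_pow_sq S K p hp2 ζ hζ]

end Count

end

end Fermat.Agent.CFT.Global
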