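/-
P4 / Layer C6 (existence theorem), leaf C6-F: in a Kummer extension `M = K(Δ^{1/p})` such that the
elements of `Δ` are local `p`-th powers at all `q ∈ S`, every place over `S` splits completely;
hence the `S`-ideles of `K` are norms from `M`.

* `Place.smul_eq_self_of_kummer` : an element of the decomposition group of `w'` fixes every
  `p`-th root `β` of an `x ∈ K` which is a `p`-th power in the completion at the place below `w'`
  (the core of `Place.free_of_kummer`);
* `smul_eq_self_of_adjoin_eq_top`, `eq_one_of_adjoin_eq_top` : an element of the Galois group fixing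
  a generating set is trivial;
* `Place.free_of_kummer_generated` : places over `S` have trivial stabilisers;
* `toFinIdele_mem_normIdeles_of_kummer` : the leaf.
-/
import Fermat.Agent.Lib.CFT.Global.SecondIneq.KummerLocal
import Fermat.Agent.Lib.CFT.Global.Kummer

set_option autoImplicit false
set_option linter.style.haveILetI false
set_option linter.unusedSectionVars false
set_option linter.unusedDecidableInType false
set_option linter.unusedFintypeInType false

open scoped TensorProduct

namespace Fermat.Agent.CFT.Global

open Fermat.Agent.CFT.Local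

noncomputable section

section Core

variable {p : ℕ} [hp : Fact p.Prime] {K L : Type} [Field K] [NumberField K] [Field L]
  [NumberField L] [Algebra K L] {G : Type} [Group G] [Finite G] [MulSemiringAction G L]
  [IsGaloisGroup G K L] {ζ : K} (hζ : IsPrimitiveRoot ζ p) {x : Kˣ} {β : Lˣ}
  (hβ : β ^ p = Units.map (algebraMap K L : K →* L) x) {q : ℕ} [Fact q.Prime]

include hζ hβ in
/-- if `x` is a `p`-th power in the completion at the place below `w'`, the decomposition group of
`w'` fixes the `p`-th roots of `x` -/
theorem Place.smul_eq_self_of_kummer (w' : Place q L)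
    (y : (Kv (Place.under (algebraMap K L) w'))ˣ)
    (hy : y ^ p = Kv.unitsEmb (Place.under (algebraMap K L) w') x) (g : G) (hg : g • w' = w') :
    g • (β : L) = β := by
  haveI : NeZero p := ⟨hp.out.ne_zero⟩
  apply (Kv.emb w').injective
  have key : ∃ t : Kv (Place.under (algebraMap K L) w'),
      Kv.emb w' (β : L) = Kv.map (algebraMap K L) w' t := by
    have hy' : (y : Kv (Place.under (algebraMap K L) w')) ^ p
        = Kv.emb (Place.under (algebraMap K L) w') (x : K) := by
      have := congrArg Units.val hy
      rw [Units.val_pow_eq_pow_val] at this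
      exact this
    have hy0 : Kv.map (algebraMap K L) w' (y : Kv (Place.under (algebraMap K L) w')) ≠ 0 := by
      rw [Ne, map_eq_zero]
      exact y.ne_zero
    have h1 : (Kv.emb w' (β : L)) ^ p
        = (Kv.map (algebraMap K L) w' (y : Kv (Place.under (algebraMap K L) w'))) ^ p := by
      rw [← map_pow, kummer_coe_pow hβ, ← Kv.map_emb, ← hy', map_pow]
    have h2 : (Kv.emb w' (β : L) / Kv.map (algebraMap K L) w' (y : Kv _)) ^ p = 1 := by
      rw [div_pow, h1, div_self (pow_ne_zero _ hy0)]
    have hζ' : IsPrimitiveRoot (Kv.map (algebraMap K L) w'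
        (Kv.emb (Place.under (algebraMap K L) w') ζ)) p :=
      (hζ.map_of_injective (Kv.emb _).injective).map_of_injective (Kv.map_injective _ w')
    obtain ⟨j, -, hj⟩ := hζ'.eq_pow_of_pow_eq_one h2
    refine ⟨Kv.emb _ ζ ^ j * (y : Kv (Place.under (algebraMap K L) w')), ?_⟩
    rw [map_mul, map_pow, hj, div_mul_cancel₀ _ hy0]
  obtain ⟨t, ht⟩ := key
  have h3 := Kv.smul_emb w' (⟨g, hg⟩ : decompGroup G w') (β : L)
  rw [← h3, ht]
  exact Kv.smul_map w' _ t

end Core

section Generated

variable {K L : Type} [Field K] [Field L] [Algebra K L] {G : Type} [Group G]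
  [MulSemiringAction G L] [IsGaloisGroup G K L]

/-- an element of the Galois group fixing a generating set fixes everything -/
theorem smul_eq_self_of_adjoin_eq_top {T : Set L} (hT : IntermediateField.adjoin K T = ⊤) (g : G)
    (h : ∀ x ∈ T, g • x = x) (x : L) : g • x = x := by
  haveI := IsGaloisGroup.commutes (G := G) (A := K) (B := L)
  have hx : x ∈ IntermediateField.adjoin K T := by rw [hT]; exact IntermediateField.mem_top
  induction hx using IntermediateField.adjoin_induction with
  | mem x hx => exact h x hx
  | algebraMap x => exact smul_algebraMap g x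
  | add x y _ _ hx hy => rw [smul_add, hx, hy]
  | inv x _ hx => rw [smul_inv'', hx]
  | mul x y _ _ hx hy => rw [smul_mul', hx, hy]

/-- an element of the Galois group fixing a generating set is trivial -/
theorem eq_one_of_adjoin_eq_top {T : Set L} (hT : IntermediateField.adjoin K T = ⊤) (g : G)
    (h : ∀ x ∈ T, g • x = x) : g = 1 := by
  haveI : FaithfulSMul G L := IsGaloisGroup.faithful K
  apply eq_of_smul_eq_smul (α := L)
  intro x
  rw [one_smul, smul_eq_self_of_adjoin_eq_top hT g h x]

end Generated

section Main

variable {p : ℕ} [hp : Fact p.Prime] {K M : Type} [Field K] [NumberField K] [Field M]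
  [NumberField M] [Algebra K M] {N : Type} [Group N] [Finite N] [MulSemiringAction N M]
  [IsGaloisGroup N K M] {ζ : K} (hζ : IsPrimitiveRoot ζ p) (Δ : Subgroup Kˣ)
  (hgen : IntermediateField.adjoin K (Kummer.rootSetOf (L := M) Δ p) = ⊤)

include hζ hgen in
/-- **Split places of a generated Kummer extension**: at a rational prime `q` at which all elements
of `Δ` are semi-local `p`-th powers, the places of `M = K(Δ^{1/p})` have trivial stabilisers. -/
theorem Place.free_of_kummer_generated {q : ℕ} [Fact q.Prime]
    (hloc : ∀ a ∈ Δ, ∃ z : (SL q K)ˣ, SL.unitsIncl q K a = z ^ p)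
    (w' : Place q M) (g : N) (hg : g • w' = w') : g = 1 := by
  refine eq_one_of_adjoin_eq_top (K := K) hgen g ?_
  rintro _ ⟨β, hβ, rfl⟩
  obtain ⟨a, ha, hβa⟩ := Kummer.mem_rootGroupOf.1 hβ
  obtain ⟨z, hz⟩ := hloc a ha
  have hβ' : β ^ p = Units.map (algebraMap K M : K →* M) a := hβa.symm
  refine Place.smul_eq_self_of_kummer hζ hβ' w'
    (SL.unitsProj (Place.under (algebraMap K M) w') z) ?_ g hg
  rw [← map_pow, ← hz, SL.unitsProj_unitsIncl]

end Main

/-- **C6-F**: if the elements of `Δ` are local `p`-th powers at all `q ∈ S`, the `S`-ideles of `K`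
are norms from the Kummer extension `M = K(Δ^{1/p})`. -/
theorem toFinIdele_mem_normIdeles_of_kummer {p : ℕ} [Fact p.Prime] (S : Finset Nat.Primes)
    {K M : Type} [Field K] [NumberField K] [Field M] [NumberField M] [Algebra K M]
    {N : Type} [Group N] [Finite N] [MulSemiringAction N M] [IsGaloisGroup N K M]
    {ζ : K} (hζ : IsPrimitiveRoot ζ p) (Δ : Subgroup Kˣ)
    (hgen : IntermediateField.adjoin K (Kummer.rootSetOf (L := M) Δ p) = ⊤)
    (hloc : ∀ a ∈ Δ, ∀ q : Nat.Primes, q ∈ S →
      ∃ z : (SL (q : ℕ) K)ˣ, SL.unitsIncl (q : ℕ) K a = z ^ p)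
    (y : JS S K) : JS.toFinIdele S K y ∈ normIdeles K M N := by
  classical
  refine mem_normIdeles_of_forall (fun q => ?_) ?_
  · by_cases hq : q ∈ S
    · refine SL.mem_of_forall_projOn_singleton _ _ fun w => ?_
      refine SL.projOn_singleton_mem_normGroup_of_free (G := N) (L := M) w ?_ _
      intro w' _ g hg
      exact Place.free_of_kummer_generated hζ Δ hgen (fun a ha => hloc a ha q hq) w' g hg
    · rw [JS.comp_toFinIdele_of_notMem _ hq]
      exact one_mem _
  · refine (Finset.finite_toSet S).subset fun q hq => ?_
    by_contra h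
    apply hq
    rw [JS.comp_toFinIdele_of_notMem _ (by simpa using h)]
    exact one_mem _


end

end Fermat.Agent.CFT.Global
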