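import Mathlib

/-!
# P4 / C6 (existence theorem): the abstract counting

Pure `Subgroup.relIndex` algebra for the existence theorem of global class field theory at
exponent `p`.  Setting: a commutative group `J` (the finite ideles), a commutative group `A`
(`= Kˣ`) with an injective homomorphism `ι : A →* J` (`= princ`), subgroups `U` (the units outside
`S`) and `T` (the `S`-ideles) of `J`.  With `Jp = Jᵖ`, `Ap = Aᵖ`, `P = ι A`:

* `Δ = ι⁻¹ (Jp ⊔ T ⊔ U)` (the elements of `K` which are `p`-th powers times units outside `S`),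
* `Sel = ι⁻¹ (Jp ⊔ U)` (those which moreover are local `p`-th powers at `S`),
* `E = ι⁻¹ (T ⊔ U)` (the `S`-units).

Results:
* `relIndex_delta` : `[Δ : Ap] = [E : E ∩ Ap] · [J : P T U Jp]`;
* `index_mul_relIndex_sel` : `[J : P U Jp] · [Δ : Sel] = [J : P T U Jp] · [T : T ∩ Jp]`;
* `index_le_relIndex_delta` : if `[T : T ∩ Jp] = [E : E ∩ Ap]²` and `[Sel : Ap] ≤ [J : P T U Jp]`
  then `[J : P U Jp] ≤ [Δ : Ap]`.
-/

set_option autoImplicit false

namespace Fermat.Agent.CFT.Global.Existence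

open Subgroup

section Goursat

variable {A B : Type*} [Group A] [Group B]

/-- **Goursat-type index lemma**: for a relation `W ≤ A × B` and subgroups `A₀ ≤ A`, `B₀ ≤ B`
which correspond under `W`, `[pr₁ W : A₀ ∩ pr₁ W] = [pr₂ W : B₀ ∩ pr₂ W]`. -/
theorem relIndex_map_fst_eq_relIndex_map_snd (W : Subgroup (A × B)) (A₀ : Subgroup A)
    (B₀ : Subgroup B) (h : ∀ x ∈ W, x.1 ∈ A₀ ↔ x.2 ∈ B₀) :
    A₀.relIndex (W.map (MonoidHom.fst A B)) = B₀.relIndex (W.map (MonoidHom.snd A B)) := by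
  rw [← Subgroup.relIndex_comap, ← Subgroup.relIndex_comap,
    ← Subgroup.inf_relIndex_right (A₀.comap _), ← Subgroup.inf_relIndex_right (B₀.comap _)]
  congr 1
  ext x
  simp only [Subgroup.mem_inf, Subgroup.mem_comap, MonoidHom.coe_fst, MonoidHom.coe_snd]
  constructor
  · rintro ⟨h1, h2⟩
    exact ⟨(h x h2).1 h1, h2⟩
  · rintro ⟨h1, h2⟩
    exact ⟨(h x h2).2 h1, h2⟩

end Goursat

section PowIndex

variable {J : Type*} [CommGroup J]

/-- In a commutative group, for a subgroup `I` of finite index,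
`[{y | yⁿ ∈ I} : I] = [J : I Jⁿ]` (`|Q[n]| = |Q/n|` for the finite group `Q = J/I`). -/
theorem relIndex_comap_pow_eq_index_sup (I : Subgroup J) (n : ℕ) (hI : I.index ≠ 0) :
    I.relIndex (I.comap (powMonoidHom n : J →* J))
      = (I ⊔ (powMonoidHom n : J →* J).range).index := by
  set Y := I.comap (powMonoidHom n : J →* J) with hY
  set Jn := (powMonoidHom n : J →* J).range with hJn
  have hIY : I ≤ Y := fun x hx => by
    rw [hY, Subgroup.mem_comap]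
    exact pow_mem hx n
  -- `[J : Y] = [I Jⁿ : I]`
  have h1 : Y.index = I.relIndex (I ⊔ Jn) := by
    rw [Subgroup.relIndex_sup_left, hY, Subgroup.index_comap]
  have h2 : I.relIndex Y * Y.index = I.index := Subgroup.relIndex_mul_index hIY
  have h3 : I.relIndex (I ⊔ Jn) * (I ⊔ Jn).index = I.index :=
    Subgroup.relIndex_mul_index le_sup_left
  rw [h1] at h2
  have h4 : I.relIndex (I ⊔ Jn) ≠ 0 := by
    intro h
    rw [h, zero_mul] at h3
    exact hI h3.symm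
  have h5 : I.relIndex Y * I.relIndex (I ⊔ Jn) = (I ⊔ Jn).index * I.relIndex (I ⊔ Jn) := by
    rw [h2, mul_comm, h3]
  exact Nat.eq_of_mul_eq_mul_right (Nat.pos_of_ne_zero h4) h5

end PowIndex

section Main

variable {J A : Type*} [CommGroup J] [CommGroup A] (ι : A →* J) (U T : Subgroup J) (p : ℕ)

/-- `Jᵖ`. -/
abbrev Jp (J : Type*) [CommGroup J] (p : ℕ) : Subgroup J := (powMonoidHom p : J →* J).range

/-- `ι⁻¹ (Jᵖ T U)`. -/
def delta : Subgroup A := (Jp J p ⊔ T ⊔ U).comap ι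

/-- `ι⁻¹ (Jᵖ U)`. -/
def sel : Subgroup A := (Jp J p ⊔ U).comap ι

/-- `ι⁻¹ (T U)`. -/
def sUnit : Subgroup A := (T ⊔ U).comap ι

lemma map_pow_mem_Jp (a : A) : ι (a ^ p) ∈ Jp J p := ⟨ι a, by simp⟩

lemma Jp_le_sel : Jp A p ≤ sel ι U p := by
  rintro _ ⟨a, rfl⟩
  exact Subgroup.mem_sup_left (map_pow_mem_Jp ι p a)

lemma sel_le_delta : sel ι U p ≤ delta ι U T p :=
  Subgroup.comap_mono (sup_le (le_sup_left.trans le_sup_left) le_sup_right)

lemma Jp_le_delta : Jp A p ≤ delta ι U T p := (Jp_le_sel ι U p).trans (sel_le_delta ι U T p)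

lemma sUnit_le_delta : sUnit ι U T ≤ delta ι U T p :=
  Subgroup.comap_mono (sup_le (le_sup_right.trans le_sup_left) le_sup_right)

lemma map_Jp : (Jp A p).map ι ≤ Jp J p := by
  rintro _ ⟨_, ⟨a, rfl⟩, rfl⟩
  exact map_pow_mem_Jp ι p a

lemma map_Jp_le_range : (Jp A p).map ι ≤ ι.range := by
  rintro _ ⟨a, -, rfl⟩
  exact ⟨a, rfl⟩

/-- `x ∈ Jᵖ H ↔ ∃ y, x y⁻ᵖ ∈ H`. -/
lemma mem_Jp_sup_iff (H : Subgroup J) (x : J) :
    x ∈ Jp J p ⊔ H ↔ ∃ y : J, x * (y ^ p)⁻¹ ∈ H := by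
  rw [Subgroup.mem_sup]
  constructor
  · rintro ⟨_, ⟨y, rfl⟩, z, hz, rfl⟩
    refine ⟨y, ?_⟩
    have : (powMonoidHom p : J →* J) y * z * (y ^ p)⁻¹ = z := by
      rw [powMonoidHom_apply, mul_comm, ← mul_assoc, inv_mul_cancel, one_mul]
    rw [this]
    exact hz
  · rintro ⟨y, hy⟩
    exact ⟨y ^ p, ⟨y, rfl⟩, _, hy, by rw [mul_comm, inv_mul_cancel_right]⟩

variable {ι U T p}

/-- **(C-i)** `[Δ : Aᵖ] = [E : E ∩ Aᵖ] · [J : P T U Jᵖ]`. -/
theorem relIndex_delta (hι : Function.Injective ι)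
    (hsat : ∀ x : J, x ^ p ∈ T ⊔ U → x ∈ T ⊔ U)
    (hfin : (ι.range ⊔ T ⊔ U).index ≠ 0) :
    (Jp A p).relIndex (delta ι U T p)
      = (Jp A p).relIndex (sUnit ι U T) * (ι.range ⊔ T ⊔ U ⊔ Jp J p).index := by
  set P := ι.range with hP
  set Pp := (Jp A p).map ι with hPp
  set E' := P ⊓ (T ⊔ U) with hE'
  set D := P ⊓ (Jp J p ⊔ T ⊔ U) with hD
  set I := P ⊔ T ⊔ U with hI
  have hPpP : Pp ≤ P := map_Jp_le_range ι p
  have hPpJ : Pp ≤ Jp J p := map_Jp ι p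
  have hTU_I : T ⊔ U ≤ I := by
    rw [hI, sup_assoc]
    exact le_sup_right
  have hP_I : P ≤ I := le_sup_left.trans le_sup_left
  have hDmap : (delta ι U T p).map ι = D := by
    rw [delta, Subgroup.map_comap_eq]
  have hEmap : (sUnit ι U T).map ι = E' := by
    rw [sUnit, Subgroup.map_comap_eq]
  have hE'D : E' ≤ D := by
    rw [← hDmap, ← hEmap]
    exact Subgroup.map_mono (sUnit_le_delta ι U T p)
  have hPpD : Pp ≤ D := by
    rw [← hDmap]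
    exact Subgroup.map_mono (Jp_le_delta ι U T p)
  -- step 1: transport along `ι`
  have s1 : (Jp A p).relIndex (delta ι U T p) = Pp.relIndex D := by
    rw [← hDmap, hPp, Subgroup.relIndex_map_map_of_injective _ _ hι]
  have s2 : (Jp A p).relIndex (sUnit ι U T) = Pp.relIndex E' := by
    rw [← hEmap, hPp, Subgroup.relIndex_map_map_of_injective _ _ hι]
  -- step 2: split at `Pp ⊔ E'`
  have s3 : Pp.relIndex D = Pp.relIndex E' * (Pp ⊔ E').relIndex D := by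
    rw [← Subgroup.relIndex_sup_left E' Pp]
    exact (Subgroup.relIndex_mul_relIndex Pp (Pp ⊔ E') D le_sup_left (sup_le hPpD hE'D)).symm
  -- step 3: Goursat
  let θ : J × J →* J :=
    (MonoidHom.fst J J) * ((powMonoidHom p : J →* J).comp (MonoidHom.snd J J))⁻¹
  have hθ : ∀ x : J × J, θ x = x.1 * (x.2 ^ p)⁻¹ := fun x => rfl
  let W : Subgroup (J × J) := P.comap (MonoidHom.fst J J) ⊓ (T ⊔ U ⊔ Pp).comap θ
  have hW : ∀ x : J × J, x ∈ W ↔ x.1 ∈ P ∧ x.1 * (x.2 ^ p)⁻¹ ∈ T ⊔ U ⊔ Pp := fun x => Iff.rfl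
  have hWfst : W.map (MonoidHom.fst J J) = D := by
    ext d
    rw [Subgroup.mem_map, hD, Subgroup.mem_inf]
    constructor
    · rintro ⟨x, hx, rfl⟩
      obtain ⟨hx1, hx2⟩ := (hW x).1 hx
      refine ⟨hx1, ?_⟩
      have h1 : x.1 ∈ Jp J p ⊔ (T ⊔ U ⊔ Pp) := (mem_Jp_sup_iff p _ _).2 ⟨x.2, hx2⟩
      have h2 : Jp J p ⊔ (T ⊔ U ⊔ Pp) ≤ Jp J p ⊔ T ⊔ U := by
        refine sup_le (le_sup_left.trans le_sup_left) (sup_le (sup_le ?_ le_sup_right) ?_)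
        · exact le_sup_right.trans le_sup_left
        · exact hPpJ.trans (le_sup_left.trans le_sup_left)
      exact h2 h1
    · rintro ⟨hd1, hd2⟩
      rw [sup_assoc] at hd2
      obtain ⟨y, hy⟩ := (mem_Jp_sup_iff p _ _).1 hd2
      exact ⟨(d, y), (hW _).2 ⟨hd1, Subgroup.mem_sup_left hy⟩, rfl⟩
  have hWsnd : W.map (MonoidHom.snd J J) = I.comap (powMonoidHom p : J →* J) := by
    ext y
    rw [Subgroup.mem_map, Subgroup.mem_comap, powMonoidHom_apply]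
    constructor
    · rintro ⟨x, hx, rfl⟩
      obtain ⟨hx1, hx2⟩ := (hW x).1 hx
      have h1 : T ⊔ U ⊔ Pp ≤ I := sup_le hTU_I (hPpP.trans hP_I)
      have h2 : (x.2 ^ p) = x.1 * (x.1 * (x.2 ^ p)⁻¹)⁻¹ := by
        rw [mul_inv, inv_inv, mul_inv_cancel_left]
      change x.2 ^ p ∈ I
      rw [h2]
      exact mul_mem (hP_I hx1) (inv_mem (h1 hx2))
    · intro hy
      rw [hI, sup_assoc, Subgroup.mem_sup] at hy
      obtain ⟨d, hd, z, hz, hdz⟩ := hy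
      refine ⟨(d, y), (hW _).2 ⟨hd, ?_⟩, rfl⟩
      change d * (y ^ p)⁻¹ ∈ T ⊔ U ⊔ Pp
      rw [← hdz, mul_inv, mul_inv_cancel_left]
      exact Subgroup.mem_sup_left (inv_mem hz)
  have hcorr : ∀ x ∈ W, x.1 ∈ Pp ⊔ E' ↔ x.2 ∈ I := by
    intro x hx
    obtain ⟨hx1, hx2⟩ := (hW x).1 hx
    constructor
    · intro h
      -- `x.2 ^ p ∈ Pp ⊔ T ⊔ U`
      have h1 : Pp ⊔ E' ≤ T ⊔ U ⊔ Pp := sup_le le_sup_right (inf_le_right.trans le_sup_left)
      have h2 : (x.2 ^ p) = x.1 * (x.1 * (x.2 ^ p)⁻¹)⁻¹ := by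
        rw [mul_inv, inv_inv, mul_inv_cancel_left]
      have h3 : x.2 ^ p ∈ T ⊔ U ⊔ Pp := by
        rw [h2]
        exact mul_mem (h1 h) (inv_mem hx2)
      rw [sup_comm, Subgroup.mem_sup] at h3
      obtain ⟨_, ⟨_, ⟨a, rfl⟩, rfl⟩, z, hz, hyz⟩ := h3
      have h4 : (x.2 * (ι a)⁻¹) ^ p ∈ T ⊔ U := by
        rw [mul_pow, inv_pow, ← hyz, powMonoidHom_apply, map_pow, mul_comm, ← mul_assoc,
          inv_mul_cancel, one_mul]
        exact hz
      have h5 := hsat _ h4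
      have h6 : x.2 = ι a * (x.2 * (ι a)⁻¹) := by
        rw [mul_comm, inv_mul_cancel_right]
      rw [h6]
      exact mul_mem (hP_I ⟨a, rfl⟩) (hTU_I h5)
    · intro h
      rw [hI, sup_assoc, Subgroup.mem_sup] at h
      obtain ⟨_, ⟨b, rfl⟩, z, hz, hbz⟩ := h
      -- `x.1 ∈ P ⊓ (Pp ⊔ (T ⊔ U)) = Pp ⊔ E'`
      have h1 : x.1 ∈ Pp ⊔ (T ⊔ U) := by
        have h2 : x.1 = (x.1 * (x.2 ^ p)⁻¹) * x.2 ^ p := by
          rw [inv_mul_cancel_right]
        have h3 : ι b ^ p ∈ Pp := ⟨b ^ p, ⟨b, rfl⟩, map_pow _ _ _⟩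
        have h4 : T ⊔ U ⊔ Pp ≤ Pp ⊔ (T ⊔ U) := sup_le le_sup_right le_sup_left
        have h7 : x.2 ^ p ∈ Pp ⊔ (T ⊔ U) := by
          rw [← hbz, mul_pow]
          exact mul_mem (Subgroup.mem_sup_left h3) (Subgroup.mem_sup_right (pow_mem hz p))
        rw [h2]
        exact mul_mem (h4 hx2) h7
      have h5 : (Pp ⊔ (T ⊔ U)) ⊓ P = Pp ⊔ (T ⊔ U) ⊓ P := sup_inf_assoc_of_le _ hPpP
      have h6 : x.1 ∈ (Pp ⊔ (T ⊔ U)) ⊓ P := ⟨h1, hx1⟩
      rw [h5, inf_comm] at h6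
      exact h6
  have s4 : (Pp ⊔ E').relIndex D = I.relIndex (I.comap (powMonoidHom p : J →* J)) := by
    rw [← hWfst, ← hWsnd]
    exact relIndex_map_fst_eq_relIndex_map_snd W _ _ hcorr
  rw [s1, s3, s2, s4, relIndex_comap_pow_eq_index_sup I p hfin]

/-- `[J : P T U Jᵖ] ≠ 0`. -/
theorem index_sup_Jp_ne_zero (hfin : (ι.range ⊔ T ⊔ U).index ≠ 0) :
    (ι.range ⊔ T ⊔ U ⊔ Jp J p).index ≠ 0 := by
  intro h
  have h1 := Subgroup.index_dvd_of_le (le_sup_left : ι.range ⊔ T ⊔ U ≤ ι.range ⊔ T ⊔ U ⊔ Jp J p)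
  rw [h, zero_dvd_iff] at h1
  exact hfin h1

/-- **(C-ii)** `[J : P U Jᵖ] · [Δ : Sel] = [J : P T U Jᵖ] · [T : T ∩ Jᵖ]`. -/
theorem index_mul_relIndex_sel (hT : (Jp J p ⊔ U) ⊓ T ≤ Jp J p) :
    (ι.range ⊔ U ⊔ Jp J p).index * (sel ι U p).relIndex (delta ι U T p)
      = (ι.range ⊔ T ⊔ U ⊔ Jp J p).index * (Jp J p).relIndex T := by
  set P := ι.range with hP
  set X := Jp J p ⊔ U with hX
  have e1 : P ⊔ U ⊔ Jp J p = X ⊔ P := by
    rw [hX]; ac_rfl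
  have e2 : P ⊔ T ⊔ U ⊔ Jp J p = X ⊔ P ⊔ T := by
    rw [hX]; ac_rfl
  have e3 : Jp J p ⊔ T ⊔ U = X ⊔ T := by
    rw [hX]; ac_rfl
  have a1 : (X ⊔ P).relIndex (X ⊔ P ⊔ T) * (X ⊔ P ⊔ T).index = (X ⊔ P).index :=
    Subgroup.relIndex_mul_index le_sup_left
  have a2 : (X ⊔ P).relIndex (X ⊔ P ⊔ T) = (X ⊔ P).relIndex T := Subgroup.relIndex_sup_left _ _
  have a3 : (Jp J p).relIndex T = (Jp J p ⊓ T).relIndex T := (Subgroup.inf_relIndex_right _ _).symm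
  have a4 : (Jp J p ⊓ T).relIndex ((X ⊔ P) ⊓ T) * ((X ⊔ P) ⊓ T).relIndex T
      = (Jp J p ⊓ T).relIndex T :=
    Subgroup.relIndex_mul_relIndex _ _ _
      (inf_le_inf_right T (le_sup_left.trans le_sup_left)) inf_le_right
  have a5 : ((X ⊔ P) ⊓ T).relIndex T = (X ⊔ P).relIndex T := Subgroup.inf_relIndex_right _ _
  have a6 : (sel ι U p).relIndex (delta ι U T p) = (Jp J p ⊓ T).relIndex ((X ⊔ P) ⊓ T) := by
    rw [sel, delta, e3, Subgroup.relIndex_comap, Subgroup.map_comap_eq,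
      ← Subgroup.relIndex_sup_left (P ⊓ (X ⊔ T)) X, ← sup_inf_assoc_of_le P (le_sup_left : X ≤ X ⊔ T),
      inf_comm, sup_inf_assoc_of_le T (le_sup_left : X ≤ X ⊔ P), Subgroup.relIndex_sup_left,
      ← Subgroup.inf_relIndex_right X (T ⊓ (X ⊔ P)), inf_comm T (X ⊔ P)]
    congr 1
    apply le_antisymm
    · rintro x ⟨hx1, -, hx3⟩
      exact ⟨hT ⟨hx1, hx3⟩, hx3⟩
    · rintro x ⟨hx1, hx2⟩
      exact ⟨Subgroup.mem_sup_left hx1,
        Subgroup.mem_sup_left (Subgroup.mem_sup_left hx1), hx2⟩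
  rw [e1, e2, a6, a3, ← a4, a5, ← a1, a2]
  ring

/-- **The counting step of the existence theorem**: if `[T : T ∩ Jᵖ] = [E : E ∩ Aᵖ]²` and
`[Sel : Aᵖ] ≤ [J : P T U Jᵖ]` then `[J : P U Jᵖ] ≤ [Δ : Aᵖ]`. -/
theorem index_le_relIndex_delta (hι : Function.Injective ι)
    (hsat : ∀ x : J, x ^ p ∈ T ⊔ U → x ∈ T ⊔ U)
    (hfin : (ι.range ⊔ T ⊔ U).index ≠ 0) (hT : (Jp J p ⊔ U) ⊓ T ≤ Jp J p)
    (a : ℕ) (ha : a ≠ 0) (hE : (Jp A p).relIndex (sUnit ι U T) = a)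
    (hTT : (Jp J p).relIndex T = a ^ 2)
    (hs : (Jp A p).relIndex (sel ι U p) ≤ (ι.range ⊔ T ⊔ U ⊔ Jp J p).index) :
    (ι.range ⊔ U ⊔ Jp J p).index ≤ (Jp A p).relIndex (delta ι U T p) := by
  have h1 := relIndex_delta (p := p) hι hsat hfin
  have h2 := index_mul_relIndex_sel (ι := ι) (U := U) (T := T) (p := p) hT
  have h3 := index_sup_Jp_ne_zero (ι := ι) (U := U) (T := T) (p := p) hfin
  have h4 : (Jp A p).relIndex (sel ι U p) * (sel ι U p).relIndex (delta ι U T p)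
      = (Jp A p).relIndex (delta ι U T p) :=
    Subgroup.relIndex_mul_relIndex _ _ _ (Jp_le_sel ι U p) (sel_le_delta ι U T p)
  rw [hE] at h1
  rw [hTT] at h2
  set s := (Jp A p).relIndex (sel ι U p)
  set d := (sel ι U p).relIndex (delta ι U T p)
  set c := (ι.range ⊔ U ⊔ Jp J p).index
  set h := (ι.range ⊔ T ⊔ U ⊔ Jp J p).index
  rw [← h4] at h1 ⊢
  have hd : d ≠ 0 := by
    rintro hd
    rw [hd, mul_zero] at h1
    exact (mul_ne_zero ha h3) h1.symm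
  have h5 : c * d = (s * a) * d := by
    rw [h2, mul_right_comm, h1]
    ring
  have h6 : c = s * a := Nat.eq_of_mul_eq_mul_right (Nat.pos_of_ne_zero hd) h5
  rw [h6, h1, mul_comm]
  exact Nat.mul_le_mul_left a hs

/-- `[Δ : Aᵖ] ≠ 0`. -/
theorem relIndex_delta_ne_zero (hι : Function.Injective ι)
    (hsat : ∀ x : J, x ^ p ∈ T ⊔ U → x ∈ T ⊔ U)
    (hfin : (ι.range ⊔ T ⊔ U).index ≠ 0)
    (hE : (Jp A p).relIndex (sUnit ι U T) ≠ 0) :
    (Jp A p).relIndex (delta ι U T p) ≠ 0 := by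
  rw [relIndex_delta (p := p) hι hsat hfin]
  exact mul_ne_zero hE (index_sup_Jp_ne_zero hfin)

/-- `[Sel : Aᵖ] ≠ 0`. -/
theorem relIndex_sel_ne_zero (hι : Function.Injective ι)
    (hsat : ∀ x : J, x ^ p ∈ T ⊔ U → x ∈ T ⊔ U)
    (hfin : (ι.range ⊔ T ⊔ U).index ≠ 0)
    (hE : (Jp A p).relIndex (sUnit ι U T) ≠ 0) :
    (Jp A p).relIndex (sel ι U p) ≠ 0 := by
  intro h
  have h4 : (Jp A p).relIndex (sel ι U p) * (sel ι U p).relIndex (delta ι U T p)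
      = (Jp A p).relIndex (delta ι U T p) :=
    Subgroup.relIndex_mul_relIndex _ _ _ (Jp_le_sel ι U p) (sel_le_delta ι U T p)
  rw [h, zero_mul] at h4
  exact relIndex_delta_ne_zero hι hsat hfin hE h4.symm

end Main

end Fermat.Agent.CFT.Global.Existence
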